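import Mathlib
import Fermat.Agent.DS.C.Defs
import Fermat.Agent.DS.C.JBar
import Fermat.Agent.S24.Degree

/-!
# Program DS, package (C), row C4 (S18′) : the coordinate `j` of `X(Γ₁(M) ∩ Γ₀(M·P))`

* `dsc_j_mem K M P`   : `j(q) ∈ dscFieldC K M P`;
* `dsc_bar_full_le`   : `F_ℚ̄(M·P) ≤ dscFieldBar M P` (the Prelude field of `X₀(M·P)`);
* `dscJBar Qb M P`       : `j` as an element of `dscFieldBar M P`; it is transcendental over `ℚ̄`;
* `dsc_bar_mono`      : monotonicity of `dscFieldBar M P` in `P`.
-/

set_option autoImplicit false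

noncomputable section

namespace Fermat.Agent.DS

open ModularCurve IntermediateField AlgebraicCurve Fermat.Agent.S24

local notation "Qb" => AlgebraicClosure ℚ

/-- `j(q)` lies in the function field of level `(M, P)` over any field. -/
theorem dsc_j_mem (K : Type*) [Field K] (M P : ℕ) [NeZero M] [NeZero P] :
    jqModC K ∈ dscFieldC K M P :=
  dsc_full_le K M P (jqModC_mem_full K (M * P))

/-- the Prelude field of `X₀(M·P)` over `ℚ̄` is contained in `dscFieldBar M P`. -/
theorem dsc_bar_full_le (M P : ℕ) [NeZero M] [NeZero P] :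
    modularFunctionFieldBar (M * P) ≤ dscFieldBar M P := by
  apply IntermediateField.adjoin.mono
  apply Set.image_mono
  intro x hx
  exact dsc_full_le ℚ M P hx

/-- monotonicity of `dscFieldBar M P` in `P`. -/
theorem dsc_bar_mono (M : ℕ) {P P' : ℕ} (h : P ∣ P') : dscFieldBar M P ≤ dscFieldBar M P' := by
  apply IntermediateField.adjoin.mono
  apply Set.image_mono
  intro x hx
  exact dsc_field_mono ℚ M h hx

theorem dscJBar_eq_inclusion (M P : ℕ) [NeZero M] [NeZero P] :
    dscJBar Qb M P = IntermediateField.inclusion (dsc_bar_full_le M P) (jBar (M * P)) := rfl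

/-- `j` is transcendental over `ℚ̄`. -/
theorem transcendental_dscJBar (M P : ℕ) [NeZero M] [NeZero P] :
    Transcendental Qb (dscJBar Qb M P) := by
  intro halg
  apply transcendental_jBar (M * P)
  rw [dscJBar_eq_inclusion] at halg
  exact (isAlgebraic_algHom_iff _ (IntermediateField.inclusion (dsc_bar_full_le M P)).injective).mp
    halg

/-- `j - c ≠ 0`. -/
theorem dscJBar_sub_ne_zero (M P : ℕ) [NeZero M] [NeZero P] (c : Qb) :
    dscJBar Qb M P - algebraMap Qb (dscFieldBar M P) c ≠ 0 := fun h =>
  transcendental_dscJBar M P (by rw [sub_eq_zero.mp h]; exact isAlgebraic_algebraMap c)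

end Fermat.Agent.DS
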