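import Mathlib
import Fermat.Agent.DS.C.Lv.Ram
import Fermat.Agent.DS.C.RH.Defs

/-!
# Program DS, package (C), row C4 (S18′) : ramification of `dscFieldBar M P / ℚ̄(j)` from a level
datum

`DscHasLevel M P` : there is a level datum `L : DscLevel ℚ̄ iotaBar` (helper17, `DS/C/Lv`) whose
function field is `dscFieldBar M P` and whose common cusp width divides `M·P` (this is what the
bridge row C1c produces for the levels `(M, 1)` and `(M, p)`).  From it: finiteness over `ℚ̄(j)` and
the four ramification facts (R-0), (R-1728), (R-generic), (R-cusp) consumed by `DS/C/RH/Main.lean`.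
-/

set_option autoImplicit false
set_option linter.unusedSectionVars false

noncomputable section

namespace Fermat.Agent.DS

open ModularCurve IntermediateField AlgebraicCurve Fermat.Agent.S24

local notation "Qb" => AlgebraicClosure ℚ

/-- the field `dscFieldBar M P` is the function field of a level datum over `ℚ̄` whose common cusp
width divides `M·P`. -/
def DscHasLevel (M P : ℕ) : Prop :=
  ∃ L : DscLevel QBar iotaBar, L.F = dscFieldBar M P ∧ L.h ∣ M * P

section

variable {M P : ℕ} [NeZero M] [NeZero P]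

/-- transport of a statement about `(L.F, L.jF)` to `(dscFieldBar M P, dscJBar Qb M P)`. -/
theorem dscpl_transport (hL : DscHasLevel M P)
    (C : ∀ (F : IntermediateField Qb (LaurentSeries Qb)) (_ : F) (_ : ℕ), Prop)
    (h : ∀ L : DscLevel QBar iotaBar, C L.F L.jF L.h) :
    ∃ w : ℕ, w ∣ M * P ∧ C (dscFieldBar M P) (dscJBar Qb M P) w := by
  obtain ⟨L, hF, hh⟩ := hL
  have key := h L
  have hj : ∀ (F : IntermediateField Qb (LaurentSeries Qb)) (hF : L.F = F) (x : F),
      (x : LaurentSeries Qb) = coeffEmb Qb jq → C L.F L.jF L.h → C F x L.h := by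
    intro F hF x hx hC
    subst hF
    have : x = L.jF := Subtype.ext (by rw [hx, L.coe_jF])
    rw [this]
    exact hC
  exact ⟨L.h, hh, hj _ hF _ rfl key⟩

/-- (F1) -/
theorem dscpl_finiteDimensional_jBar' (hL : DscHasLevel M P) :
    FiniteDimensional Qb⟮dscJBar Qb M P⟯ (dscFieldBar M P) := by
  obtain ⟨_, -, h⟩ := dscpl_transport hL (fun F j _ => FiniteDimensional Qb⟮j⟯ F)
    (fun L => dscl_finiteDimensional_jF L)
  exact h

/-- (R-0) -/
theorem dscpl_ord_dvd_zero' (hL : DscHasLevel M P) (v : Place Qb (dscFieldBar M P))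
    (hv : 0 < v.ord (dscJBar Qb M P)) : v.ord (dscJBar Qb M P) ∣ (3 : ℤ) := by
  obtain ⟨_, -, h⟩ := dscpl_transport hL
    (fun F j _ => ∀ v : Place Qb F, 0 < v.ord j → v.ord j ∣ (3 : ℤ))
    (fun L => dscl_ord_dvd_zero L)
  exact h v hv

/-- (R-1728) -/
theorem dscpl_ord_dvd_1728' (hL : DscHasLevel M P) (v : Place Qb (dscFieldBar M P))
    (hv : 0 < v.ord (dscJBar Qb M P - algebraMap Qb (dscFieldBar M P) 1728)) :
    v.ord (dscJBar Qb M P - algebraMap Qb (dscFieldBar M P) 1728) ∣ (2 : ℤ) := by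
  obtain ⟨_, -, h⟩ := dscpl_transport hL
    (fun F j _ => ∀ v : Place Qb F, 0 < v.ord (j - algebraMap Qb F 1728) →
      v.ord (j - algebraMap Qb F 1728) ∣ (2 : ℤ))
    (fun L => dscl_ord_dvd_1728 L)
  exact h v hv

/-- (R-generic) -/
theorem dscpl_ord_eq_one' (hL : DscHasLevel M P) (a : Qb) (ha0 : a ≠ 0) (ha : a ≠ 1728)
    (v : Place Qb (dscFieldBar M P))
    (hv : 0 < v.ord (dscJBar Qb M P - algebraMap Qb (dscFieldBar M P) a)) :
    v.ord (dscJBar Qb M P - algebraMap Qb (dscFieldBar M P) a) = 1 := by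
  obtain ⟨_, -, h⟩ := dscpl_transport hL
    (fun F j _ => ∀ a : Qb, a ≠ 0 → a ≠ 1728 → ∀ v : Place Qb F,
      0 < v.ord (j - algebraMap Qb F a) → v.ord (j - algebraMap Qb F a) = 1)
    (fun L => dscl_ord_eq_one L)
  exact h a ha0 ha v hv

/-- (R-cusp) -/
theorem dscpl_ord_dvd_cusp' (hL : DscHasLevel M P) (v : Place Qb (dscFieldBar M P))
    (hv : v.ord (dscJBar Qb M P) < 0) : v.ord (dscJBar Qb M P) ∣ ((M * P : ℕ) : ℤ) := by
  obtain ⟨w, hw, h⟩ := dscpl_transport hL
    (fun F j w => ∀ v : Place Qb F, v.ord j < 0 → v.ord j ∣ (w : ℤ))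
    (fun L => dscl_ord_dvd_cusp L)
  exact (h v hv).trans (Int.natCast_dvd_natCast.mpr hw)

end

end Fermat.Agent.DS
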