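import Mathlib
import Fermat.Agent.S18.RH.Main
import Fermat.Agent.DS.C.D.Main
import Fermat.Agent.DS.C.RH.Ram

/-!
# Program DS, package (C), row C4 (S18′), package RH : the ramification hypotheses for
`dscFieldC E M P (y) / E(j)`, `ℓ ≥ 5` (`dscrh_RH`)

Port of the `Main` section of `S18/RH/Main.lean` (`s18_RH_zero`, `s18_RH_infty`, `s18_RH`) to the
level `(M, P)` = `Γ₁(M) ∩ Γ₀(M·P)`: the generic chart theorem `s18r_chart` (imported as it is) for the
coordinate `j` (chart at `0`: `S = {0, 1728}`, weights `3, 2`) and for `1/j` (chart at `∞`: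
`S' = {0, 1/1728}`, weights `M·P, 2`), fed with the ramification of `dscFieldBar M P / ℚ̄(j)`
(`dscpl_ord_*'` of `RH/Ram.lean`, from the hypothesis `hL : DscHasLevel M P`), `s18r_exists_place`
(weak places are places; generic) and `dscd_up_mem`.
-/

set_option autoImplicit false
set_option linter.unusedSectionVars false
set_option linter.unusedVariables false
set_option linter.style.haveILetI false
set_option synthInstance.maxHeartbeats 400000

noncomputable section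

namespace Fermat.Agent.DS

open ModularCurve AlgebraicCurve IsLocalRing Polynomial IntermediateField Fermat.Agent.S24
  Fermat.Agent.S18

local notation "Qb" => AlgebraicClosure ℚ

section Main

variable (A : ValuationSubring Qb) (E : IntermediateField ℚ Qb)

/-- the element `t̄` attached to `j` is `dscJBar Qb M P`. -/
theorem dscrh_tbar_eq (M P : ℕ) [NeZero M] [NeZero P] :
    (⟨s18dUp E (jqModC E), dscd_up_mem E M P _ (dsc_j_mem E M P)⟩ : dscFieldBar M P) =
      dscJBar Qb M P := Subtype.ext (s18r_up_j E)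

/-- the chart at `0` for the coordinate `j`. -/
theorem dscrh_RH_zero (M P : ℕ) [NeZero M] [NeZero P] (hL : DscHasLevel M P) {ℓ : ℕ} [Fact ℓ.Prime]
    (hℓN : ¬ ℓ ∣ M * P)
    (hA : A.LiesOverPrime ℓ) (hℓ5 : 5 ≤ ℓ) [FiniteDimensional ℚ E]
    [IsDiscreteValuationRing (s18dVal A E)] (ϖ : s18dVal A E) (hϖ : Irreducible ϖ)
    (ζ : E) (hζ : IsPrimitiveRoot ζ (6 * (M * P)))
    (p : ℕ) (hp : p.Prime) (hpℓ : p ≠ ℓ)
    (v₁ v₂ : LaurentSeries (s18dVal A E))
    (hv₁ : s18vIncl (s18dVal A E) E v₁ ∈ dscFieldC E M P)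
    (hv₂ : s18vIncl (s18dVal A E) E v₂ ∈ dscFieldC E M P) (hv₂0 : v₂ ≠ 0)
    (y : LaurentSeries E)
    (hy : y ^ p * s18vIncl (s18dVal A E) E v₂ = s18vIncl (s18dVal A E) E v₁)
    (hdiv : ∀ (h₁ : s18dUp E (s18vIncl (s18dVal A E) E v₁) ∈ dscFieldBar M P)
      (h₂ : s18dUp E (s18vIncl (s18dVal A E) E v₂) ∈ dscFieldBar M P)
      (Q : Place (AlgebraicClosure ℚ) (dscFieldBar M P)),
      (p : ℤ) ∣ Q.ord ⟨_, h₁⟩ - Q.ord ⟨_, h₂⟩) :
    S18Chart (s18dVal A E) E ϖ
        (s18cLift (dscFieldC E M P) y ⟨jqModC E, dsc_j_mem E M P⟩)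
        ({0, 1728} : Finset (s18dVal A E)) := by
  classical
  have hℓp : ℓ.Prime := Fact.out
  have h2 : ¬ ℓ ∣ 2 := fun h => by
    have := Nat.le_of_dvd (by norm_num) h; omega
  have h3 : ¬ ℓ ∣ 3 := fun h => by
    have := Nat.le_of_dvd (by norm_num) h; omega
  have h1728 : ¬ ℓ ∣ 1728 := fun h => by
    have e : 1728 = 2 ^ 6 * 3 ^ 3 := by norm_num
    rw [e] at h
    rcases (Nat.Prime.dvd_mul hℓp).mp h with h' | h'
    · exact h2 (hℓp.dvd_of_dvd_pow h')
    · exact h3 (hℓp.dvd_of_dvd_pow h')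
  have hu1728 : IsUnit ((1728 : ℕ) : s18dVal A E) := s18r_isUnit_natCast A E hA 1728 h1728
  have hx₂ : s18vIncl (s18dVal A E) E v₂ ≠ 0 := by
    intro h
    apply hv₂0
    ext k
    have := congrArg (fun s => HahnSeries.coeff s k) h
    simpa using this
  have hW : ∀ W₁ : ValuationSubring (dscFieldBar M P), S18IsPlace Qb W₁ →
      ∃ Q : Place Qb (dscFieldBar M P), Q.toValuationSubring = W₁ := by
    intro W₁ hW₁
    haveI := dscpl_finiteDimensional_jBar' hL
    exact s18r_exists_place (dscJBar Qb M P) (transcendental_dscJBar M P) W₁ hW₁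
  have h1728E : algebraMap E Qb ((1728 : s18dVal A E) : E) = 1728 := by
    have : ((1728 : s18dVal A E) : E) = 1728 := rfl
    rw [this, map_ofNat]
  have hne0 : (1728 : s18dVal A E) ≠ 0 := by
    have : ((1728 : ℕ) : s18dVal A E) ≠ 0 := hu1728.ne_zero
    exact_mod_cast this
  refine s18r_chart A E ϖ hϖ (dscFieldC E M P) (dscFieldBar M P)
    (dscd_up_mem E M P) hW p hp.ne_zero _ _ hv₁ hv₂ hx₂ y hy (fun Q => hdiv _ _ Q)
    ⟨jqModC E, dsc_j_mem E M P⟩ ?_ {0, 1728} (fun s => if s = 0 then 3 else 2) ?_ ?_ ?_ ?_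
  · -- `t̄ - a ≠ 0`
    intro a h
    rw [dscrh_tbar_eq] at h
    exact transcendental_dscJBar M P (by
      rw [sub_eq_zero.mp h]; exact isAlgebraic_algebraMap a)
  · -- separation
    intro s hs s' hs' hss'
    simp only [Finset.mem_insert, Finset.mem_singleton] at hs hs'
    rcases hs with rfl | rfl <;> rcases hs' with rfl | rfl
    · exact absurd rfl hss'
    · rw [zero_sub]; exact (by exact_mod_cast hu1728 : IsUnit (1728 : s18dVal A E)).neg
    · rw [sub_zero]; exact_mod_cast hu1728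
    · exact absurd rfl hss'
  · -- weights
    intro s hs
    simp only [Finset.mem_insert, Finset.mem_singleton] at hs
    rcases hs with rfl | rfl
    · rw [if_pos rfl]
      refine ⟨s18r_isUnit_natCast A E hA 3 h3, ζ ^ (2 * (M * P)), ?_⟩
      exact hζ.pow (Nat.mul_pos (by norm_num) (NeZero.pos (M * P))) (by ring)
    · rw [if_neg hne0]
      refine ⟨s18r_isUnit_natCast A E hA 2 h2, ζ ^ (3 * (M * P)), ?_⟩
      exact hζ.pow (Nat.mul_pos (by norm_num) (NeZero.pos (M * P))) (by ring)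
  · -- generic points
    intro Q a ha hpos
    rw [dscrh_tbar_eq] at hpos ⊢
    have ha0 : a ≠ 0 := by
      have := ha 0 (by simp)
      simpa using this
    have ha1728 : a ≠ 1728 := by
      have := ha 1728 (by simp)
      rwa [h1728E] at this
    exact dscpl_ord_eq_one' hL a ha0 ha1728 Q hpos
  · -- special points
    intro s hs Q hpos
    simp only [Finset.mem_insert, Finset.mem_singleton] at hs
    rw [dscrh_tbar_eq] at hpos ⊢
    rcases hs with rfl | rfl
    · rw [if_pos rfl]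
      have e : algebraMap Qb (dscFieldBar M P)
          (algebraMap E Qb ((0 : s18dVal A E) : E)) = 0 := by simp
      rw [e, sub_zero] at hpos ⊢
      exact dscpl_ord_dvd_zero' hL Q hpos
    · rw [if_neg hne0]
      rw [h1728E] at hpos ⊢
      exact dscpl_ord_dvd_1728' hL Q hpos

/-- the chart at `∞` for the coordinate `j`. -/
theorem dscrh_RH_infty (M P : ℕ) [NeZero M] [NeZero P] (hL : DscHasLevel M P) {ℓ : ℕ} [Fact ℓ.Prime]
    (hℓN : ¬ ℓ ∣ M * P)
    (hA : A.LiesOverPrime ℓ) (hℓ5 : 5 ≤ ℓ) [FiniteDimensional ℚ E]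
    [IsDiscreteValuationRing (s18dVal A E)] (ϖ : s18dVal A E) (hϖ : Irreducible ϖ)
    (ζ : E) (hζ : IsPrimitiveRoot ζ (6 * (M * P)))
    (p : ℕ) (hp : p.Prime) (hpℓ : p ≠ ℓ)
    (v₁ v₂ : LaurentSeries (s18dVal A E))
    (hv₁ : s18vIncl (s18dVal A E) E v₁ ∈ dscFieldC E M P)
    (hv₂ : s18vIncl (s18dVal A E) E v₂ ∈ dscFieldC E M P) (hv₂0 : v₂ ≠ 0)
    (y : LaurentSeries E)
    (hy : y ^ p * s18vIncl (s18dVal A E) E v₂ = s18vIncl (s18dVal A E) E v₁)
    (hdiv : ∀ (h₁ : s18dUp E (s18vIncl (s18dVal A E) E v₁) ∈ dscFieldBar M P)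
      (h₂ : s18dUp E (s18vIncl (s18dVal A E) E v₂) ∈ dscFieldBar M P)
      (Q : Place (AlgebraicClosure ℚ) (dscFieldBar M P)),
      (p : ℤ) ∣ Q.ord ⟨_, h₁⟩ - Q.ord ⟨_, h₂⟩) :
    ∃ S' : Finset (s18dVal A E), S18Chart (s18dVal A E) E ϖ
        (s18cLift (dscFieldC E M P) y ⟨jqModC E, dsc_j_mem E M P⟩)⁻¹ S' := by
  classical
  have hℓp : ℓ.Prime := Fact.out
  have h2 : ¬ ℓ ∣ 2 := fun h => by
    have := Nat.le_of_dvd (by norm_num) h; omega
  have h3 : ¬ ℓ ∣ 3 := fun h => by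
    have := Nat.le_of_dvd (by norm_num) h; omega
  have h1728 : ¬ ℓ ∣ 1728 := fun h => by
    have e : 1728 = 2 ^ 6 * 3 ^ 3 := by norm_num
    rw [e] at h
    rcases (Nat.Prime.dvd_mul hℓp).mp h with h' | h'
    · exact h2 (hℓp.dvd_of_dvd_pow h')
    · exact h3 (hℓp.dvd_of_dvd_pow h')
  have hu1728 : IsUnit ((1728 : ℕ) : s18dVal A E) := s18r_isUnit_natCast A E hA 1728 h1728
  have hx₂ : s18vIncl (s18dVal A E) E v₂ ≠ 0 := by
    intro h
    apply hv₂0
    ext k
    have := congrArg (fun s => HahnSeries.coeff s k) h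
    simpa using this
  have hW : ∀ W₁ : ValuationSubring (dscFieldBar M P), S18IsPlace Qb W₁ →
      ∃ Q : Place Qb (dscFieldBar M P), Q.toValuationSubring = W₁ := by
    intro W₁ hW₁
    haveI := dscpl_finiteDimensional_jBar' hL
    exact s18r_exists_place (dscJBar Qb M P) (transcendental_dscJBar M P) W₁ hW₁
  -- the point `1/1728`
  set u : s18dVal A E := ((hu1728.unit⁻¹ : (s18dVal A E)ˣ) : s18dVal A E) with hu
  have huu : IsUnit u := Units.isUnit _
  have hu0 : u ≠ 0 := huu.ne_zero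
  have huE : algebraMap E Qb (u : E) = (1728 : Qb)⁻¹ := by
    have h1 : u * ((1728 : ℕ) : s18dVal A E) = 1 := by
      rw [hu]
      have := hu1728.unit.inv_mul
      rwa [IsUnit.unit_spec] at this
    have h1' : u * (1728 : s18dVal A E) = 1 := by exact_mod_cast h1
    have h2 : (u : E) * (1728 : E) = 1 := congrArg Subtype.val h1'
    have h3 : algebraMap E Qb (u : E) * 1728 = 1 := by
      have := congrArg (algebraMap E Qb) h2
      rwa [map_mul, map_ofNat, map_one] at this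
    exact eq_inv_of_mul_eq_one_left h3
  -- the coordinate
  set t : dscFieldC E M P := ⟨jqModC E, dsc_j_mem E M P⟩ with ht
  have hlift : s18cLift (dscFieldC E M P) y t⁻¹ =
      (s18cLift (dscFieldC E M P) y t)⁻¹ := Subtype.ext rfl
  have htb : (⟨s18dUp E ((t⁻¹ : dscFieldC E M P) : LaurentSeries E),
      dscd_up_mem E M P _ (t⁻¹ : dscFieldC E M P).2⟩ : dscFieldBar M P) =
      (dscJBar Qb M P)⁻¹ := by
    apply Subtype.ext
    show s18dUp E ((t : LaurentSeries E)⁻¹) = ((dscJBar Qb M P : dscFieldBar M P) :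
      LaurentSeries Qb)⁻¹
    rw [map_inv₀, coe_dscJBar, ← s18r_up_j E]
  refine ⟨{0, u}, ?_⟩
  rw [← hlift]
  refine s18r_chart A E ϖ hϖ (dscFieldC E M P) (dscFieldBar M P)
    (dscd_up_mem E M P) hW p hp.ne_zero _ _ hv₁ hv₂ hx₂ y hy (fun Q => hdiv _ _ Q)
    t⁻¹ ?_ {0, u} (fun s => if s = 0 then M * P else 2) ?_ ?_ ?_ ?_
  · -- `t̄ - a ≠ 0`
    intro a h
    rw [htb] at h
    exact transcendental_inv (transcendental_dscJBar M P) (by
      rw [sub_eq_zero.mp h]; exact isAlgebraic_algebraMap a)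
  · -- separation
    intro s hs s' hs' hss'
    simp only [Finset.mem_insert, Finset.mem_singleton] at hs hs'
    rcases hs with rfl | rfl <;> rcases hs' with rfl | rfl
    · exact absurd rfl hss'
    · rw [zero_sub]; exact huu.neg
    · rw [sub_zero]; exact huu
    · exact absurd rfl hss'
  · -- weights
    intro s hs
    simp only [Finset.mem_insert, Finset.mem_singleton] at hs
    rcases hs with rfl | rfl
    · rw [if_pos rfl]
      refine ⟨s18r_isUnit_natCast A E hA (M * P) hℓN, ζ ^ 6, ?_⟩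
      exact hζ.pow (Nat.mul_pos (by norm_num) (NeZero.pos (M * P))) rfl
    · rw [if_neg hu0]
      refine ⟨s18r_isUnit_natCast A E hA 2 h2, ζ ^ (3 * (M * P)), ?_⟩
      exact hζ.pow (Nat.mul_pos (by norm_num) (NeZero.pos (M * P))) (by ring)
  · -- generic points
    intro Q a ha hpos
    rw [htb] at hpos ⊢
    have ha0 : a ≠ 0 := by
      have := ha 0 (by simp)
      simpa using this
    have hau : a ≠ (1728 : Qb)⁻¹ := by
      have := ha u (by simp)
      rwa [huE] at this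
    have heq := s18r_ord_inv_sub Q (dscJBar Qb M P) a ha0 hpos
    rw [heq] at hpos ⊢
    refine dscpl_ord_eq_one' hL a⁻¹ (inv_ne_zero ha0) (fun h => hau ?_) Q hpos
    rw [← h, inv_inv]
  · -- special points
    intro s hs Q hpos
    simp only [Finset.mem_insert, Finset.mem_singleton] at hs
    rw [htb] at hpos ⊢
    rcases hs with rfl | rfl
    · rw [if_pos rfl]
      have e : algebraMap Qb (dscFieldBar M P)
          (algebraMap E Qb ((0 : s18dVal A E) : E)) = 0 := by simp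
      rw [e, sub_zero, Place.ord_inv] at hpos ⊢
      have hneg : Q.ord (dscJBar Qb M P) < 0 := by omega
      exact (neg_dvd).mpr (dscpl_ord_dvd_cusp' hL Q hneg)
    · rw [if_neg hu0]
      rw [huE] at hpos ⊢
      have h1728' : ((1728 : Qb)⁻¹) ≠ 0 := inv_ne_zero (by norm_num)
      have heq := s18r_ord_inv_sub Q (dscJBar Qb M P) _ h1728' hpos
      rw [heq, inv_inv] at hpos ⊢
      exact dscpl_ord_dvd_1728' hL Q hpos


/-- (packages R + U + D) THE RAMIFICATION HYPOTHESES for `F_E(N)(y) / E(j)`, `ℓ ≥ 5`. -/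
theorem dscrh_RH (M P : ℕ) [NeZero M] [NeZero P] (hL : DscHasLevel M P) {ℓ : ℕ} [Fact ℓ.Prime]
    (hℓN : ¬ ℓ ∣ M * P)
    (hA : A.LiesOverPrime ℓ) (hℓ5 : 5 ≤ ℓ) [FiniteDimensional ℚ E]
    [IsDiscreteValuationRing (s18dVal A E)] (ϖ : s18dVal A E) (hϖ : Irreducible ϖ)
    (ζ : E) (hζ : IsPrimitiveRoot ζ (6 * (M * P)))
    (p : ℕ) (hp : p.Prime) (hpℓ : p ≠ ℓ)
    (v₁ v₂ : LaurentSeries (s18dVal A E))
    (hv₁ : s18vIncl (s18dVal A E) E v₁ ∈ dscFieldC E M P)
    (hv₂ : s18vIncl (s18dVal A E) E v₂ ∈ dscFieldC E M P) (hv₂0 : v₂ ≠ 0)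
    (y : LaurentSeries E)
    (hy : y ^ p * s18vIncl (s18dVal A E) E v₂ = s18vIncl (s18dVal A E) E v₁)
    (hdiv : ∀ (h₁ : s18dUp E (s18vIncl (s18dVal A E) E v₁) ∈ dscFieldBar M P)
      (h₂ : s18dUp E (s18vIncl (s18dVal A E) E v₂) ∈ dscFieldBar M P)
      (Q : Place (AlgebraicClosure ℚ) (dscFieldBar M P)),
      (p : ℤ) ∣ Q.ord ⟨_, h₁⟩ - Q.ord ⟨_, h₂⟩) :
    ∃ S S' : Finset (s18dVal A E),
      S18Chart (s18dVal A E) E ϖ
        (s18cLift (dscFieldC E M P) y ⟨jqModC E, dsc_j_mem E M P⟩) S ∧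
      S18Chart (s18dVal A E) E ϖ
        (s18cLift (dscFieldC E M P) y ⟨jqModC E, dsc_j_mem E M P⟩)⁻¹ S' := by
  obtain ⟨S', hS'⟩ := dscrh_RH_infty A E M P hL hℓN hA hℓ5 ϖ hϖ ζ hζ p hp hpℓ v₁ v₂ hv₁ hv₂ hv₂0 y hy hdiv
  exact ⟨{0, 1728}, S',
    dscrh_RH_zero A E M P hL hℓN hA hℓ5 ϖ hϖ ζ hζ p hp hpℓ v₁ v₂ hv₁ hv₂ hv₂0 y hy hdiv, hS'⟩

end Main

end Fermat.Agent.DS
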