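import Mathlib
import Fermat.Agent.S18.RH.Small
import Fermat.Agent.DS.C.RH.Main

/-!
# Program DS, package (C), row C4 (S18′), package RH : the ramification hypotheses for
`dscFieldC E M (a·P) (y) / E(h_a)`, `ℓ ∈ {2, 3}`, `a = 5 - ℓ` (`dscrh_RH_small`)

Port of the `Main` and `Inst` sections of `S18/RH/Small.lean` to the level pair
`(M, P) ⊂ (M, a·P)`.  The Hauptmodul `h_a`, its identities and the algebra of the transfer of
ramification along `j = R_a(h)` (`S18/RH/SmallAlg.lean`) are level-free and imported as they are.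
-/

set_option autoImplicit false
set_option linter.unusedSectionVars false
set_option linter.unusedVariables false
set_option linter.style.haveILetI false
set_option synthInstance.maxHeartbeats 400000

noncomputable section

namespace Fermat.Agent.DS

open ModularCurve AlgebraicCurve IsLocalRing Polynomial IntermediateField Fermat.Agent.S24
  Fermat.Agent.S18

local notation "Qb" => AlgebraicClosure ℚ

section Main

variable (A : ValuationSubring Qb) (E : IntermediateField ℚ Qb)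

/-- THE TWO CHARTS for a coordinate `t` of `dscFieldC E M' P'`, `P ∣ P'`, whose ramification over `ℚ̄` is concentrated
in `0, ∞, -n₀` with indices dividing `M·P', M·P', w₀`. -/
theorem dscrh_chart_pair (M P : ℕ) [NeZero M] [NeZero P] (hL : DscHasLevel M P) {ℓ : ℕ} [Fact ℓ.Prime]
    (hℓN : ¬ ℓ ∣ M * P)
    (hA : A.LiesOverPrime ℓ) (M' P' : ℕ) [NeZero M'] [NeZero P'] (hL' : DscHasLevel M' P')
    (hleE : dscFieldC E M P ≤ dscFieldC E M' P')
    (hleB : dscFieldBar M P ≤ dscFieldBar M' P') (hℓM : ¬ ℓ ∣ M' * P')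
    [FiniteDimensional ℚ E]
    [IsDiscreteValuationRing (s18dVal A E)] (ϖ : s18dVal A E) (hϖ : Irreducible ϖ)
    (ζ : E) (hζ : IsPrimitiveRoot ζ (6 * (M' * P')))
    (p : ℕ) (hp : p.Prime)
    (v₁ v₂ : LaurentSeries (s18dVal A E))
    (hv₁ : s18vIncl (s18dVal A E) E v₁ ∈ dscFieldC E M P)
    (hv₂ : s18vIncl (s18dVal A E) E v₂ ∈ dscFieldC E M P) (hv₂0 : v₂ ≠ 0)
    (y : LaurentSeries E)
    (hy : y ^ p * s18vIncl (s18dVal A E) E v₂ = s18vIncl (s18dVal A E) E v₁)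
    (hdiv : ∀ (h₁ : s18dUp E (s18vIncl (s18dVal A E) E v₁) ∈ dscFieldBar M P)
      (h₂ : s18dUp E (s18vIncl (s18dVal A E) E v₂) ∈ dscFieldBar M P)
      (Q : Place (AlgebraicClosure ℚ) (dscFieldBar M P)),
      (p : ℤ) ∣ Q.ord ⟨_, h₁⟩ - Q.ord ⟨_, h₂⟩)
    (t : dscFieldC E M' P')
    (n₀ w₀ m₀ : ℕ) (hn₀ : ¬ ℓ ∣ n₀) (hw₀ : ¬ ℓ ∣ w₀) (hm₀ : 6 * (M' * P') = m₀ * w₀)
    (hne : ∀ c : Qb, (⟨s18dUp E t, dscd_up_mem E M' P' _ t.2⟩ : dscFieldBar M' P') -
      algebraMap Qb (dscFieldBar M' P') c ≠ 0)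
    (hpack : ∀ Q : Place Qb (dscFieldBar M' P'),
      (∀ b : Qb, b ≠ 0 → b ≠ -(n₀ : Qb) →
        0 < Q.ord ((⟨s18dUp E t, dscd_up_mem E M' P' _ t.2⟩ : dscFieldBar M' P') -
          algebraMap Qb (dscFieldBar M' P') b) →
        Q.ord ((⟨s18dUp E t, dscd_up_mem E M' P' _ t.2⟩ : dscFieldBar M' P') -
          algebraMap Qb (dscFieldBar M' P') b) = 1) ∧
      (0 < Q.ord ((⟨s18dUp E t, dscd_up_mem E M' P' _ t.2⟩ : dscFieldBar M' P') -
          algebraMap Qb (dscFieldBar M' P') (-(n₀ : Qb))) →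
        Q.ord ((⟨s18dUp E t, dscd_up_mem E M' P' _ t.2⟩ : dscFieldBar M' P') -
          algebraMap Qb (dscFieldBar M' P') (-(n₀ : Qb))) ∣ ((w₀ : ℕ) : ℤ)) ∧
      (0 < Q.ord (⟨s18dUp E t, dscd_up_mem E M' P' _ t.2⟩ : dscFieldBar M' P') →
        Q.ord (⟨s18dUp E t, dscd_up_mem E M' P' _ t.2⟩ : dscFieldBar M' P') ∣
          ((M' * P' : ℕ) : ℤ)) ∧
      (Q.ord (⟨s18dUp E t, dscd_up_mem E M' P' _ t.2⟩ : dscFieldBar M' P') < 0 →
        Q.ord (⟨s18dUp E t, dscd_up_mem E M' P' _ t.2⟩ : dscFieldBar M' P') ∣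
          ((M' * P' : ℕ) : ℤ))) :
    ∃ S S' : Finset (s18dVal A E),
      S18Chart (s18dVal A E) E ϖ (s18cLift (dscFieldC E M' P') y t) S ∧
      S18Chart (s18dVal A E) E ϖ (s18cLift (dscFieldC E M' P') y t)⁻¹ S' := by
  classical
  have hℓp : ℓ.Prime := Fact.out
  have hMpos : 0 < 6 * (M' * P') := Nat.mul_pos (by norm_num) (NeZero.pos (M' * P'))
  have hn₀0 : n₀ ≠ 0 := fun h => hn₀ (h ▸ dvd_zero ℓ)
  have hn₀Q : (n₀ : Qb) ≠ 0 := Nat.cast_ne_zero.mpr hn₀0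
  have hun₀ : IsUnit ((n₀ : ℕ) : s18dVal A E) := s18r_isUnit_natCast A E hA n₀ hn₀
  have huM : IsUnit (((M' * P' : ℕ) : ℕ) : s18dVal A E) :=
    s18r_isUnit_natCast A E hA (M' * P') hℓM
  have huw : IsUnit ((w₀ : ℕ) : s18dVal A E) := s18r_isUnit_natCast A E hA w₀ hw₀
  have hζM : IsPrimitiveRoot (ζ ^ 6) (M' * P') := hζ.pow hMpos rfl
  have hζw : IsPrimitiveRoot (ζ ^ m₀) w₀ := hζ.pow hMpos hm₀
  have hx₂ : s18vIncl (s18dVal A E) E v₂ ≠ 0 := by
    intro h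
    apply hv₂0
    ext k
    have := congrArg (fun s => HahnSeries.coeff s k) h
    simpa using this
  have hWN : ∀ W₁ : ValuationSubring (dscFieldBar M P), S18IsPlace Qb W₁ →
      ∃ Q : Place Qb (dscFieldBar M P), Q.toValuationSubring = W₁ := by
    intro W₁ hW₁
    haveI := dscpl_finiteDimensional_jBar' hL
    exact s18r_exists_place (dscJBar Qb M P) (transcendental_dscJBar M P) W₁ hW₁
  have hW : ∀ W₁ : ValuationSubring (dscFieldBar M' P'), S18IsPlace Qb W₁ →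
      ∃ Q : Place Qb (dscFieldBar M' P'), Q.toValuationSubring = W₁ := by
    intro W₁ hW₁
    haveI := dscpl_finiteDimensional_jBar' hL'
    exact s18r_exists_place (dscJBar Qb M' P') (transcendental_dscJBar M' P') W₁ hW₁
  -- `hdiv` at level `a N`
  have hdivM : ∀ Q' : Place Qb (dscFieldBar M' P'),
      (p : ℤ) ∣ Q'.ord (⟨s18dUp E (s18vIncl (s18dVal A E) E v₁),
          dscd_up_mem E M' P' _ (hleE hv₁)⟩ : dscFieldBar M' P') -
        Q'.ord (⟨s18dUp E (s18vIncl (s18dVal A E) E v₂),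
          dscd_up_mem E M' P' _ (hleE hv₂)⟩ : dscFieldBar M' P') := by
    intro Q'
    letI : Algebra (dscFieldBar M P) (dscFieldBar M' P') :=
      (IntermediateField.inclusion hleB).toRingHom.toAlgebra
    haveI : IsScalarTower Qb (dscFieldBar M P) (dscFieldBar M' P') :=
      IsScalarTower.of_algebraMap_eq (fun _ => rfl)
    haveI := dscpl_finiteDimensional_jBar' hL'
    haveI : Algebra.IsAlgebraic (dscFieldBar M P) (dscFieldBar M' P') :=
      s18rs_isAlgebraic_of_le _ _ hleB (dscJBar Qb M' P') (by rw [coe_dscJBar]; exact (dscJBar Qb M P).2)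
    obtain ⟨Q, r, hr, -, hord⟩ := s18r_place_restrict hWN Q'
    have e1 : (⟨s18dUp E (s18vIncl (s18dVal A E) E v₁),
          dscd_up_mem E M' P' _ (hleE hv₁)⟩ : dscFieldBar M' P') =
        algebraMap (dscFieldBar M P) (dscFieldBar M' P')
          ⟨s18dUp E (s18vIncl (s18dVal A E) E v₁), dscd_up_mem E M P _ hv₁⟩ := rfl
    have e2 : (⟨s18dUp E (s18vIncl (s18dVal A E) E v₂),
          dscd_up_mem E M' P' _ (hleE hv₂)⟩ : dscFieldBar M' P') =
        algebraMap (dscFieldBar M P) (dscFieldBar M' P')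
          ⟨s18dUp E (s18vIncl (s18dVal A E) E v₂), dscd_up_mem E M P _ hv₂⟩ := rfl
    rw [e1, e2, hord, hord, ← mul_sub]
    exact Dvd.dvd.mul_left (hdiv _ _ Q) _
  -- the points
  have hs₀E : algebraMap E Qb ((-(n₀ : s18dVal A E) : s18dVal A E) : E) = -(n₀ : Qb) := by
    have : ((-(n₀ : s18dVal A E) : s18dVal A E) : E) = -(n₀ : E) := rfl
    rw [this, map_neg, map_natCast]
  have hs₀0 : (-(n₀ : s18dVal A E) : s18dVal A E) ≠ 0 := neg_ne_zero.mpr hun₀.ne_zero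
  set u : s18dVal A E := ((hun₀.unit⁻¹ : (s18dVal A E)ˣ) : s18dVal A E) with hu
  have huu : IsUnit u := Units.isUnit _
  have hu0 : -u ≠ 0 := neg_ne_zero.mpr huu.ne_zero
  have huE : algebraMap E Qb ((-u : s18dVal A E) : E) = -(n₀ : Qb)⁻¹ := by
    have h1 : u * ((n₀ : ℕ) : s18dVal A E) = 1 := by
      rw [hu]
      have := hun₀.unit.inv_mul
      rwa [IsUnit.unit_spec] at this
    have h2 : (u : E) * (n₀ : E) = 1 := congrArg Subtype.val h1
    have h3 : algebraMap E Qb (u : E) * (n₀ : Qb) = 1 := by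
      have := congrArg (algebraMap E Qb) h2
      rwa [map_mul, map_natCast, map_one] at this
    have h4 : ((-u : s18dVal A E) : E) = -(u : E) := rfl
    rw [h4, map_neg, eq_inv_of_mul_eq_one_left h3]
  refine ⟨{0, -(n₀ : s18dVal A E)}, {0, -u}, ?_, ?_⟩
  · -- the chart at `0`
    refine s18r_chart A E ϖ hϖ (dscFieldC E M' P')
      (dscFieldBar M' P') (dscd_up_mem E M' P') hW p hp.ne_zero _ _ (hleE hv₁)
      (hleE hv₂) hx₂ y hy hdivM t hne {0, -(n₀ : s18dVal A E)}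
      (fun s => if s = 0 then M' * P' else w₀) ?_ ?_ ?_ ?_
    · -- separation
      intro s hs s' hs' hss'
      simp only [Finset.mem_insert, Finset.mem_singleton] at hs hs'
      rcases hs with rfl | rfl <;> rcases hs' with rfl | rfl
      · exact absurd rfl hss'
      · rw [zero_sub, neg_neg]; exact hun₀
      · rw [sub_zero]; exact hun₀.neg
      · exact absurd rfl hss'
    · -- weights
      intro s hs
      simp only [Finset.mem_insert, Finset.mem_singleton] at hs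
      rcases hs with rfl | rfl
      · rw [if_pos rfl]; exact ⟨huM, ζ ^ 6, hζM⟩
      · rw [if_neg hs₀0]; exact ⟨huw, ζ ^ m₀, hζw⟩
    · -- generic points
      intro Q b hb hpos
      have hb0 : b ≠ 0 := by
        have := hb 0 (by simp)
        simpa using this
      have hbs : b ≠ -(n₀ : Qb) := by
        have := hb (-(n₀ : s18dVal A E)) (by simp)
        rwa [hs₀E] at this
      exact (hpack Q).1 b hb0 hbs hpos
    · -- special points
      intro s hs Q hpos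
      simp only [Finset.mem_insert, Finset.mem_singleton] at hs
      rcases hs with rfl | rfl
      · rw [if_pos rfl]
        have e : algebraMap Qb (dscFieldBar M' P')
            (algebraMap E Qb ((0 : s18dVal A E) : E)) = 0 := by simp
        rw [e, sub_zero] at hpos ⊢
        exact (hpack Q).2.2.1 hpos
      · rw [if_neg hs₀0]
        rw [hs₀E] at hpos ⊢
        exact (hpack Q).2.1 hpos
  · -- the chart at `∞`
    have hlift : s18cLift (dscFieldC E M' P') y t⁻¹ =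
        (s18cLift (dscFieldC E M' P') y t)⁻¹ := Subtype.ext rfl
    have htb : (⟨s18dUp E ((t⁻¹ : dscFieldC E M' P') : LaurentSeries E),
        dscd_up_mem E M' P' _ (t⁻¹ : dscFieldC E M' P').2⟩ :
          dscFieldBar M' P') =
        (⟨s18dUp E t, dscd_up_mem E M' P' _ t.2⟩ : dscFieldBar M' P')⁻¹ := by
      apply Subtype.ext
      show s18dUp E ((t : LaurentSeries E)⁻¹) = (s18dUp E (t : LaurentSeries E))⁻¹
      rw [map_inv₀]
    rw [← hlift]
    refine s18r_chart A E ϖ hϖ (dscFieldC E M' P')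
      (dscFieldBar M' P') (dscd_up_mem E M' P') hW p hp.ne_zero _ _ (hleE hv₁)
      (hleE hv₂) hx₂ y hy hdivM t⁻¹ ?_ {0, -u}
      (fun s => if s = 0 then M' * P' else w₀) ?_ ?_ ?_ ?_
    · -- `t̄⁻¹ - c ≠ 0`
      intro c h
      rw [htb] at h
      have htb0 : (⟨s18dUp E t, dscd_up_mem E M' P' _ t.2⟩ :
          dscFieldBar M' P') ≠ 0 := by
        have := hne 0
        rwa [map_zero, sub_zero] at this
      have hc0 : c ≠ 0 := by
        rintro rfl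
        rw [map_zero, sub_zero] at h
        exact inv_ne_zero htb0 h
      apply hne c⁻¹
      rw [sub_eq_zero] at h ⊢
      rw [map_inv₀, ← h, inv_inv]
    · -- separation
      intro s hs s' hs' hss'
      simp only [Finset.mem_insert, Finset.mem_singleton] at hs hs'
      rcases hs with rfl | rfl <;> rcases hs' with rfl | rfl
      · exact absurd rfl hss'
      · rw [zero_sub, neg_neg]; exact huu
      · rw [sub_zero]; exact huu.neg
      · exact absurd rfl hss'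
    · -- weights
      intro s hs
      simp only [Finset.mem_insert, Finset.mem_singleton] at hs
      rcases hs with rfl | rfl
      · rw [if_pos rfl]; exact ⟨huM, ζ ^ 6, hζM⟩
      · rw [if_neg hu0]; exact ⟨huw, ζ ^ m₀, hζw⟩
    · -- generic points
      intro Q b hb hpos
      rw [htb] at hpos ⊢
      have hb0 : b ≠ 0 := by
        have := hb 0 (by simp)
        simpa using this
      have hbu : b ≠ -(n₀ : Qb)⁻¹ := by
        have := hb (-u) (by simp)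
        rwa [huE] at this
      have heq := s18r_ord_inv_sub Q _ b hb0 hpos
      rw [heq] at hpos ⊢
      refine (hpack Q).1 b⁻¹ (inv_ne_zero hb0) (fun h => hbu ?_) hpos
      rw [← inv_inv b, h, inv_neg]
    · -- special points
      intro s hs Q hpos
      simp only [Finset.mem_insert, Finset.mem_singleton] at hs
      rw [htb] at hpos ⊢
      rcases hs with rfl | rfl
      · rw [if_pos rfl]
        have e : algebraMap Qb (dscFieldBar M' P')
            (algebraMap E Qb ((0 : s18dVal A E) : E)) = 0 := by simp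
        rw [e, sub_zero, Place.ord_inv] at hpos ⊢
        have hneg : Q.ord (⟨s18dUp E t, dscd_up_mem E M' P' _ t.2⟩ :
            dscFieldBar M' P') < 0 := by omega
        exact (neg_dvd).mpr ((hpack Q).2.2.2 hneg)
      · rw [if_neg hu0]
        rw [huE] at hpos ⊢
        have hne' : (-(n₀ : Qb)⁻¹) ≠ 0 := neg_ne_zero.mpr (inv_ne_zero hn₀Q)
        have heq := s18r_ord_inv_sub Q _ _ hne' hpos
        rw [heq, inv_neg, inv_inv] at hpos ⊢
        exact (hpack Q).2.1 hpos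

end Main


section Inst

variable (A : ValuationSubring Qb) (E : IntermediateField ℚ Qb)

theorem dscrh_coe_jBar_eq (M P : ℕ) [NeZero M] [NeZero P] :
    ((dscJBar Qb M P : dscFieldBar M P) : LaurentSeries Qb) = jqModC Qb := by
  rw [coe_dscJBar, coeffEmb, ← jqModC_rat, coeffMap_jqModC]

/-- `j h² = (h + 256)³` in `dscFieldBar M P`. -/
theorem dscrh_bar_two [NeZero 2]
    (hid2 : jqModC ℤ * s18hq 2 24 ℤ ^ 2 = (s18hq 2 24 ℤ + 256) ^ 3) (M P : ℕ) [NeZero M] [NeZero P]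
    (hmem : s18hq 2 24 E ∈ dscFieldC E M P) :
    dscJBar Qb M P * (⟨s18dUp E (s18hq 2 24 E), dscd_up_mem E M P _ hmem⟩ : dscFieldBar M P) ^ 2 =
      ((⟨s18dUp E (s18hq 2 24 E), dscd_up_mem E M P _ hmem⟩ : dscFieldBar M P) + 256) ^ 3 := by
  apply Subtype.ext
  have h := congrArg (coeffMap (Int.castRingHom Qb)) hid2
  rw [map_mul, map_pow, map_pow, map_add, coeffMap_jqModC, s18rs_coeffMap_hq, map_ofNat] at h
  push_cast
  rw [dscrh_coe_jBar_eq, s18rs_coeffMap_hq]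
  exact h

/-- `j h³ = (h + 27)(h + 243)³` in `dscFieldBar M P`. -/
theorem dscrh_bar_three [NeZero 3]
    (hid3 : jqModC ℤ * s18hq 3 12 ℤ ^ 3 = (s18hq 3 12 ℤ + 27) * (s18hq 3 12 ℤ + 243) ^ 3)
    (M P : ℕ) [NeZero M] [NeZero P] (hmem : s18hq 3 12 E ∈ dscFieldC E M P) :
    dscJBar Qb M P * (⟨s18dUp E (s18hq 3 12 E), dscd_up_mem E M P _ hmem⟩ : dscFieldBar M P) ^ 3 =
      ((⟨s18dUp E (s18hq 3 12 E), dscd_up_mem E M P _ hmem⟩ : dscFieldBar M P) + 27) *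
      ((⟨s18dUp E (s18hq 3 12 E), dscd_up_mem E M P _ hmem⟩ : dscFieldBar M P) + 243) ^ 3 := by
  apply Subtype.ext
  have h := congrArg (coeffMap (Int.castRingHom Qb)) hid3
  rw [map_mul, map_mul, map_pow, map_pow, map_add, map_add, coeffMap_jqModC, s18rs_coeffMap_hq,
    map_ofNat, map_ofNat] at h
  push_cast
  rw [dscrh_coe_jBar_eq, s18rs_coeffMap_hq]
  exact h

/-- `ℓ = 3`, `a = 2`. -/
theorem dscrh_RH_two [NeZero 2]
    (hid2 : jqModC ℤ * s18hq 2 24 ℤ ^ 2 = (s18hq 2 24 ℤ + 256) ^ 3)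
    (M P : ℕ) [NeZero M] [NeZero P] {ℓ : ℕ} [Fact ℓ.Prime] (hℓ3 : ℓ = 3) (hℓN : ¬ ℓ ∣ M * P)
    (hA : A.LiesOverPrime ℓ) [FiniteDimensional ℚ E]
    [IsDiscreteValuationRing (s18dVal A E)] (ϖ : s18dVal A E) (hϖ : Irreducible ϖ)
    (ζ : E) (M' P' : ℕ) [NeZero M'] [NeZero P'] (hL : DscHasLevel M P) (hL' : DscHasLevel M' P')
    (hleE : dscFieldC E M P ≤ dscFieldC E M' P')
    (hleB : dscFieldBar M P ≤ dscFieldBar M' P') (hℓM : ¬ ℓ ∣ M' * P')
    (hζ : IsPrimitiveRoot ζ (6 * (M' * P')))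
    (p : ℕ) (hp : p.Prime)
    (v₁ v₂ : LaurentSeries (s18dVal A E))
    (hv₁ : s18vIncl (s18dVal A E) E v₁ ∈ dscFieldC E M P)
    (hv₂ : s18vIncl (s18dVal A E) E v₂ ∈ dscFieldC E M P) (hv₂0 : v₂ ≠ 0)
    (y : LaurentSeries E)
    (hy : y ^ p * s18vIncl (s18dVal A E) E v₂ = s18vIncl (s18dVal A E) E v₁)
    (hdiv : ∀ (h₁ : s18dUp E (s18vIncl (s18dVal A E) E v₁) ∈ dscFieldBar M P)
      (h₂ : s18dUp E (s18vIncl (s18dVal A E) E v₂) ∈ dscFieldBar M P)
      (Q : Place (AlgebraicClosure ℚ) (dscFieldBar M P)),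
      (p : ℤ) ∣ Q.ord ⟨_, h₁⟩ - Q.ord ⟨_, h₂⟩)
    (hmem : s18hq 2 24 E ∈ dscFieldC E M' P') :
    ∃ S S' : Finset (s18dVal A E),
      S18Chart (s18dVal A E) E ϖ
        (s18cLift (dscFieldC E M' P') y ⟨s18hq 2 24 E, hmem⟩) S ∧
      S18Chart (s18dVal A E) E ϖ
        (s18cLift (dscFieldC E M' P') y ⟨s18hq 2 24 E, hmem⟩)⁻¹ S' := by
  subst hℓ3
  have hid := dscrh_bar_two E hid2 M' P' hmem
  refine dscrh_chart_pair A E M P hL hℓN hA M' P' hL' hleE hleB hℓM ϖ hϖ ζ hζ p hp v₁ v₂ hv₁ hv₂ hv₂0 y hy hdiv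
    ⟨s18hq 2 24 E, hmem⟩ 64 2 (3 * (M' * P')) (by decide) (by decide) (by ring) ?_ ?_
  · exact s18rs_ne_two _ _ hid (dscJBar_sub_ne_zero _ _)
  · intro Q
    have key := s18rs_pack_two Q _ _ hid (dscJBar_sub_ne_zero M' P') (M' * P')
      (dscpl_ord_dvd_zero' hL' Q)
      (dscpl_ord_dvd_1728' hL' Q)
      (fun c hc0 hc1 => dscpl_ord_eq_one' hL' c hc0 hc1 Q)
      (dscpl_ord_dvd_cusp' hL' Q)
    have e64 : -((64 : ℕ) : Qb) = -64 := by norm_num
    rw [e64]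
    exact_mod_cast key

/-- `ℓ = 2`, `a = 3`. -/
theorem dscrh_RH_three [NeZero 3]
    (hid3 : jqModC ℤ * s18hq 3 12 ℤ ^ 3 = (s18hq 3 12 ℤ + 27) * (s18hq 3 12 ℤ + 243) ^ 3)
    (M P : ℕ) [NeZero M] [NeZero P] {ℓ : ℕ} [Fact ℓ.Prime] (hℓ2 : ℓ = 2) (hℓN : ¬ ℓ ∣ M * P)
    (hA : A.LiesOverPrime ℓ) [FiniteDimensional ℚ E]
    [IsDiscreteValuationRing (s18dVal A E)] (ϖ : s18dVal A E) (hϖ : Irreducible ϖ)
    (ζ : E) (M' P' : ℕ) [NeZero M'] [NeZero P'] (hL : DscHasLevel M P) (hL' : DscHasLevel M' P')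
    (hleE : dscFieldC E M P ≤ dscFieldC E M' P')
    (hleB : dscFieldBar M P ≤ dscFieldBar M' P') (hℓM : ¬ ℓ ∣ M' * P')
    (hζ : IsPrimitiveRoot ζ (6 * (M' * P')))
    (p : ℕ) (hp : p.Prime)
    (v₁ v₂ : LaurentSeries (s18dVal A E))
    (hv₁ : s18vIncl (s18dVal A E) E v₁ ∈ dscFieldC E M P)
    (hv₂ : s18vIncl (s18dVal A E) E v₂ ∈ dscFieldC E M P) (hv₂0 : v₂ ≠ 0)
    (y : LaurentSeries E)
    (hy : y ^ p * s18vIncl (s18dVal A E) E v₂ = s18vIncl (s18dVal A E) E v₁)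
    (hdiv : ∀ (h₁ : s18dUp E (s18vIncl (s18dVal A E) E v₁) ∈ dscFieldBar M P)
      (h₂ : s18dUp E (s18vIncl (s18dVal A E) E v₂) ∈ dscFieldBar M P)
      (Q : Place (AlgebraicClosure ℚ) (dscFieldBar M P)),
      (p : ℤ) ∣ Q.ord ⟨_, h₁⟩ - Q.ord ⟨_, h₂⟩)
    (hmem : s18hq 3 12 E ∈ dscFieldC E M' P') :
    ∃ S S' : Finset (s18dVal A E),
      S18Chart (s18dVal A E) E ϖ
        (s18cLift (dscFieldC E M' P') y ⟨s18hq 3 12 E, hmem⟩) S ∧
      S18Chart (s18dVal A E) E ϖ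
        (s18cLift (dscFieldC E M' P') y ⟨s18hq 3 12 E, hmem⟩)⁻¹ S' := by
  subst hℓ2
  have hid := dscrh_bar_three E hid3 M' P' hmem
  refine dscrh_chart_pair A E M P hL hℓN hA M' P' hL' hleE hleB hℓM ϖ hϖ ζ hζ p hp v₁ v₂ hv₁ hv₂ hv₂0 y hy hdiv
    ⟨s18hq 3 12 E, hmem⟩ 27 3 (2 * (M' * P')) (by decide) (by decide) (by ring) ?_ ?_
  · exact s18rs_ne_three _ _ hid (dscJBar_sub_ne_zero _ _)
  · intro Q
    have key := s18rs_pack_three Q _ _ hid (dscJBar_sub_ne_zero M' P') (M' * P')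
      (dscpl_ord_dvd_zero' hL' Q)
      (dscpl_ord_dvd_1728' hL' Q)
      (fun c hc0 hc1 => dscpl_ord_eq_one' hL' c hc0 hc1 Q)
      (dscpl_ord_dvd_cusp' hL' Q)
    have e27 : -((27 : ℕ) : Qb) = -27 := by norm_num
    rw [e27]
    exact_mod_cast key

/-- THE RAMIFICATION HYPOTHESES for `dscFieldC E M' P' (y) / E(h_a)`, `P ∣ P'`,, `ℓ ∈ {2, 3}`, `a = 5 - ℓ`,
with the Hauptmodul identities `hid2`, `hid3` (`s18h_identity_two`, `s18h_identity_three`) and the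
membership `hmem` as hypotheses. -/
theorem dscrh_RH_small
    (hid2 : jqModC ℤ * s18hq 2 24 ℤ ^ 2 = (s18hq 2 24 ℤ + 256) ^ 3)
    (hid3 : jqModC ℤ * s18hq 3 12 ℤ ^ 3 = (s18hq 3 12 ℤ + 27) * (s18hq 3 12 ℤ + 243) ^ 3)
    (M P : ℕ) [NeZero M] [NeZero P] {ℓ : ℕ} [Fact ℓ.Prime] (hℓN : ¬ ℓ ∣ M * P)
    (hA : A.LiesOverPrime ℓ) (a : ℕ) [NeZero a] (ha : (ℓ = 2 ∧ a = 3) ∨ (ℓ = 3 ∧ a = 2))
    (ha23 : a = 2 ∨ a = 3)
    (M' P' : ℕ) [NeZero M'] [NeZero P'] (hL : DscHasLevel M P) (hL' : DscHasLevel M' P')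
    (hleE : dscFieldC E M P ≤ dscFieldC E M' P')
    (hleB : dscFieldBar M P ≤ dscFieldBar M' P') (hℓM : ¬ ℓ ∣ M' * P')
    [FiniteDimensional ℚ E]
    [IsDiscreteValuationRing (s18dVal A E)] (ϖ : s18dVal A E) (hϖ : Irreducible ϖ)
    (ζ : E) (hζ : IsPrimitiveRoot ζ (6 * (M' * P')))
    (p : ℕ) (hp : p.Prime) (hpℓ : p ≠ ℓ)
    (v₁ v₂ : LaurentSeries (s18dVal A E))
    (hv₁ : s18vIncl (s18dVal A E) E v₁ ∈ dscFieldC E M P)
    (hv₂ : s18vIncl (s18dVal A E) E v₂ ∈ dscFieldC E M P) (hv₂0 : v₂ ≠ 0)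
    (y : LaurentSeries E)
    (hy : y ^ p * s18vIncl (s18dVal A E) E v₂ = s18vIncl (s18dVal A E) E v₁)
    (hdiv : ∀ (h₁ : s18dUp E (s18vIncl (s18dVal A E) E v₁) ∈ dscFieldBar M P)
      (h₂ : s18dUp E (s18vIncl (s18dVal A E) E v₂) ∈ dscFieldBar M P)
      (Q : Place (AlgebraicClosure ℚ) (dscFieldBar M P)),
      (p : ℤ) ∣ Q.ord ⟨_, h₁⟩ - Q.ord ⟨_, h₂⟩)
    (hmem : s18hq a (s18hExp a) E ∈ dscFieldC E M' P') :
    ∃ S S' : Finset (s18dVal A E),
      S18Chart (s18dVal A E) E ϖ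
        (s18cLift (dscFieldC E M' P') y
          ⟨s18hq a (s18hExp a) E, hmem⟩) S ∧
      S18Chart (s18dVal A E) E ϖ
        (s18cLift (dscFieldC E M' P') y
          ⟨s18hq a (s18hExp a) E, hmem⟩)⁻¹ S' := by
  rcases ha with ⟨hℓ, rfl⟩ | ⟨hℓ, rfl⟩
  · exact dscrh_RH_three A E hid3 M P hℓ hℓN hA ϖ hϖ ζ M' P' hL hL' hleE hleB hℓM hζ p hp v₁ v₂ hv₁ hv₂ hv₂0 y hy hdiv hmem
  · exact dscrh_RH_two A E hid2 M P hℓ hℓN hA ϖ hϖ ζ M' P' hL hL' hleE hleB hℓM hζ p hp v₁ v₂ hv₁ hv₂ hv₂0 y hy hdiv hmem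

end Inst

end Fermat.Agent.DS
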